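import Fermat.Agent.BrauerTheory.Index
import Mathlib.GroupTheory.Sylow
import Mathlib.GroupTheory.SpecificGroups.Cyclic
import Mathlib.FieldTheory.Normal.Closure
import Mathlib.FieldTheory.Galois.Basic

/-!
# The period divides the index

A class split by a cyclic extension of degree `n` is killed by `n`, as the `n`-th power of an element
of the base field is a norm. Climbing the Sylow subgroups gives the same for every finite separable
extension, so the period of a division algebra divides its degree, and has the same prime divisors.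
-/

set_option autoImplicit false

noncomputable section

universe u

open Module IntermediateField
open scoped TensorProduct

namespace FA.BrauerLocal

open FA.BrauerTheory

variable {K : Type u} [Field K]

/-- A class split by a cyclic extension is killed by the degree. -/
theorem pow_eq_one_of_cyclic {L : Type u} [Field L] [Algebra K L] [FiniteDimensional K L]
    [IsGalois K L] [IsCyclic (L ≃ₐ[K] L)] {x : BrauerGroup.{u, u} K}
    (hx : restriction L x = 1) : x ^ finrank K L = 1 := by
  obtain ⟨σ, hσ⟩ := IsCyclic.exists_generator (α := L ≃ₐ[K] L)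
  obtain ⟨a, rfl⟩ : x ∈ (cyclicHom hσ).range := by rw [cyclicHom_range hσ]; exact hx
  rw [← map_pow]
  exact (cyclicClass_eq_one_iff hσ _).2
    ⟨algebraMap K L a, by rw [Algebra.norm_algebraMap, Units.val_pow_eq_pow_val]⟩

/-- In an extension whose group is a `p`-group, every intermediate field kills what it splits by
its degree. -/
theorem pow_eq_one_of_pGroup {p : ℕ} [hp : Fact p.Prime] {N : Type u} [Field N] (k : ℕ) :
    ∀ (M : Type u) [Field M] [Algebra M N] [FiniteDimensional M N] [IsGalois M N],
      Nat.card (N ≃ₐ[M] N) = p ^ k → ∀ (R : IntermediateField M N) (y : BrauerGroup.{u, u} M),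
        restriction R y = 1 → y ^ finrank M R = 1 := by
  induction k with
  | zero =>
    intro M _ _ _ _ hk R y hy
    rw [pow_zero, IsGalois.card_aut_eq_finrank] at hk
    have hR : R = ⊥ := IntermediateField.finrank_eq_one_iff.1 (Nat.dvd_one.1
      (hk ▸ ⟨finrank R N, (Module.finrank_mul_finrank M R N).symm⟩))
    subst hR
    rw [← restriction_self (y ^ _), map_pow,
      restriction_eq_one_of_algHom (IntermediateField.botEquiv M N).toAlgHom hy, one_pow]
  | succ k ih =>
    intro M _ _ _ _ hk R y hy
    by_cases hR : R = ⊥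
    · subst hR
      rw [← restriction_self (y ^ _), map_pow,
        restriction_eq_one_of_algHom (IntermediateField.botEquiv M N).toAlgHom hy, one_pow]
    obtain ⟨j, hj, hH⟩ := (Nat.dvd_prime_pow hp.out).1
      (hk ▸ R.fixingSubgroup.card_subgroup_dvd_card)
    have hjk : j ≤ k := by
      rcases Nat.lt_or_ge j (k + 1) with h | h
      · omega
      · obtain rfl : j = k + 1 := by omega
        exact absurd (by rw [← IsGalois.fixedField_fixingSubgroup R,
          Subgroup.eq_top_of_card_eq _ (hH.trans hk.symm), IsGalois.fixedField_top]) hR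
    obtain ⟨S, hS, hle⟩ := Sylow.exists_subgroup_card_pow_prime_le p
      (hk ▸ pow_dvd_pow p k.le_succ) R.fixingSubgroup hH hjk
    have hidx : S.index = p := by
      have h := S.card_mul_index
      rw [hS, hk, pow_succ] at h
      exact Nat.eq_of_mul_eq_mul_left (pow_pos hp.out.pos k) h
    have : S.Normal := S.normal_of_index_eq_minFac_card (by
      rw [hidx, hk, Nat.pow_minFac k.succ_ne_zero, hp.out.minFac_eq])
    let M₁ : IntermediateField M N := fixedField S
    have hM₁ : finrank M₁ N = p ^ k := (finrank_fixedField_eq_card S).trans hS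
    have hcard : finrank M M₁ = p := by
      have h := Module.finrank_mul_finrank M M₁ N
      rw [hM₁, ← IsGalois.card_aut_eq_finrank M N, hk, pow_succ, mul_comm (p ^ k)] at h
      exact Nat.eq_of_mul_eq_mul_right (pow_pos hp.out.pos k) h
    have : IsCyclic (M₁ ≃ₐ[M] M₁) :=
      isCyclic_of_prime_card ((IsGalois.card_aut_eq_finrank M M₁).trans hcard)
    have hle' : M₁ ≤ R := by
      rw [← IsGalois.fixedField_fixingSubgroup R]
      exact IntermediateField.fixedField_antitone hle
    let R₁ : IntermediateField M₁ N := extendScalars hle'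
    have h₁ : restriction R₁ (restriction M₁ y) = 1 := by
      rw [restriction_restriction]
      exact restriction_eq_one_of_algHom
        { toRingHom := RingHom.id _, commutes' := fun _ => rfl } hy
    have h₂ := ih M₁ ((IsGalois.card_aut_eq_finrank M₁ N).trans hM₁) R₁ _ h₁
    rw [← map_pow] at h₂
    have h₃ := pow_eq_one_of_cyclic h₂
    rw [← pow_mul, mul_comm, Module.finrank_mul_finrank M M₁ R₁] at h₃
    exact h₃

/-- The Galois closure of a finite separable extension. -/
theorem exists_galois_closure (K L₀ : Type u) [Field K] [Field L₀] [Algebra K L₀]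
    [FiniteDimensional K L₀] [Algebra.IsSeparable K L₀] :
    ∃ (N : Type u) (_ : Field N) (_ : Algebra K N), FiniteDimensional K N ∧ IsGalois K N ∧
      Nonempty (L₀ →ₐ[K] N) := by
  let Ω := AlgebraicClosure L₀
  let N : IntermediateField K Ω := normalClosure K L₀ Ω
  have : ∀ f : L₀ →ₐ[K] Ω, Algebra.IsSeparable K f.fieldRange := fun f =>
    AlgEquiv.Algebra.isSeparable (AlgEquiv.ofInjectiveField f)
  have hs : Algebra.IsSeparable K N := by
    show Algebra.IsSeparable K (⨆ f : L₀ →ₐ[K] Ω, f.fieldRange : IntermediateField K Ω)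
    infer_instance
  exact ⟨N, inferInstance, inferInstance, inferInstance, { },
    ⟨(IsScalarTower.toAlgHom K L₀ Ω).codRestrict N.toSubalgebra fun y =>
      AlgHom.fieldRange_le_normalClosure (IsScalarTower.toAlgHom K L₀ Ω) ⟨y, rfl⟩⟩⟩

/-- **A class split by a finite separable extension is killed by its degree.** -/
theorem pow_finrank_eq_one {L₀ : Type u} [Field L₀] [Algebra K L₀] [FiniteDimensional K L₀]
    [Algebra.IsSeparable K L₀] {x : BrauerGroup.{u, u} K} (hx : restriction L₀ x = 1) :
    x ^ finrank K L₀ = 1 := by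
  obtain ⟨N, _, _, _, _, ⟨g⟩⟩ := exists_galois_closure K L₀
  set R₀ := g.fieldRange
  set m := finrank K L₀
  have hm : finrank K R₀ = m := (AlgEquiv.ofInjectiveField g).toLinearEquiv.finrank_eq.symm
  refine eq_one_of_coprime_splitting fun q hq => ?_
  have : Fact q.Prime := ⟨hq⟩
  let QH : Sylow q R₀.fixingSubgroup := default
  let Q : Subgroup (N ≃ₐ[K] N) := (QH : Subgroup R₀.fixingSubgroup).map R₀.fixingSubgroup.subtype
  obtain ⟨P, hP⟩ := (QH.isPGroup'.map R₀.fixingSubgroup.subtype).exists_le_sylow
  let M : IntermediateField K N := fixedField (P : Subgroup (N ≃ₐ[K] N))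
  obtain ⟨a, ha⟩ := IsPGroup.iff_card.1 P.isPGroup'
  obtain ⟨b, hb⟩ := IsPGroup.iff_card.1 QH.isPGroup'
  have hQ : Nat.card Q = q ^ b :=
    (Nat.card_congr ((QH : Subgroup R₀.fixingSubgroup).equivMapOfInjective _
      R₀.fixingSubgroup.subtype_injective).toEquiv).symm.trans hb
  have hab : b ≤ a := (Nat.pow_le_pow_iff_right hq.one_lt).1
    (hQ ▸ ha ▸ Subgroup.card_le_of_le hP)
  have hleR : R₀ ≤ fixedField Q := by
    rw [← IsGalois.fixedField_fixingSubgroup R₀]
    exact IntermediateField.fixedField_antitone (Subgroup.map_subtype_le _)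
  have hleM : M ≤ fixedField Q := IntermediateField.fixedField_antitone hP
  let R : IntermediateField M N := extendScalars hleM
  have hR₀ : restriction R₀ x = 1 :=
    restriction_eq_one_of_algHom (AlgEquiv.ofInjectiveField g).toAlgHom hx
  have hR : restriction R (restriction M x) = 1 := by
    rw [restriction_restriction]
    exact restriction_eq_one_of_algHom
      ({ toRingHom := (inclusion hleR).toRingHom
         commutes' := fun c => (inclusion hleR).commutes c } : R₀ →ₐ[K] R) hR₀
  have hMN : finrank M N = q ^ a := (finrank_fixedField_eq_card _).trans ha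
  have hpow := pow_eq_one_of_pGroup a M ((IsGalois.card_aut_eq_finrank M N).trans hMN) R _ hR
  have hdeg : finrank M R = q ^ (a - b) := by
    have h := Module.finrank_mul_finrank M R N
    rw [hMN, show finrank R N = q ^ b from (finrank_fixedField_eq_card Q).trans hQ] at h
    refine Nat.eq_of_mul_eq_mul_right (pow_pos hq.pos b) (h.trans ?_)
    rw [← pow_add, Nat.sub_add_cancel hab]
  have hdvd : q ^ (a - b) ∣ m := by
    have hH : Nat.card R₀.fixingSubgroup * m = Nat.card (N ≃ₐ[K] N) := by
      rw [IsGalois.card_fixingSubgroup_eq_finrank, IsGalois.card_aut_eq_finrank, ← hm, mul_comm,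
        Module.finrank_mul_finrank]
    refine (Nat.Coprime.pow_left _ ((hq.coprime_iff_not_dvd).2 QH.not_dvd_index)).dvd_of_dvd_mul_left
      (m := (QH : Subgroup R₀.fixingSubgroup).index) (Nat.dvd_of_mul_dvd_mul_left (pow_pos hq.pos b) ?_)
    rw [← pow_add, Nat.add_sub_cancel' hab, ← mul_assoc, ← hb, Subgroup.card_mul_index, hH, ← ha]
    exact Subgroup.card_subgroup_dvd_card _
  refine ⟨M, inferInstance, inferInstance, inferInstance, fun hdiv => ?_, ?_⟩
  · have h := Module.finrank_mul_finrank K M N
    rw [hMN, ← IsGalois.card_aut_eq_finrank K N, ← (P : Subgroup (N ≃ₐ[K] N)).card_mul_index, ha,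
      mul_comm (finrank K M)] at h
    exact P.not_dvd_index (Nat.eq_of_mul_eq_mul_left (pow_pos hq.pos a) h ▸ hdiv)
  · rw [map_pow]
    obtain ⟨c, hc⟩ := hdvd
    rw [hc, pow_mul, ← hdeg, hpow, one_pow]

/-- A separable extension of degree prime to the period splits only the trivial class. -/
theorem eq_one_of_coprime {M : Type u} [Field M] [Algebra K M] [FiniteDimensional K M]
    [Algebra.IsSeparable K M] {x : BrauerGroup.{u, u} K} {n : ℕ} (hn : x ^ n = 1)
    (hco : Nat.Coprime n (finrank K M)) (hx : restriction M x = 1) : x = 1 := by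
  simpa [hco.gcd_eq_one] using pow_gcd_eq_one.2 ⟨hn, pow_finrank_eq_one hx⟩

variable {D : Type u} [DivisionRing D] [Algebra K D] [FiniteDimensional K D] [Algebra.IsCentral K D]
  {d : ℕ}

/-- **The period divides the index.** -/
theorem pow_degree_eq_one (hd : finrank K D = d ^ 2) :
    mk ({ __ := AlgCat.of K D } : CSA.{u, u} K) ^ d = 1 := by
  obtain ⟨L, hL, hs, hdeg, he⟩ := FA.CSA.exists_splitting (F := K) (D := D)
  let _ : Field L := hL.toField
  obtain ⟨f⟩ := he
  have : FiniteDimensional K L := FiniteDimensional.of_finrank_pos (Nat.pos_of_ne_zero fun h => by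
    rw [h, sq, zero_mul] at hdeg
    exact (Module.finrank_pos (R := K) (M := D)).ne hdeg)
  obtain rfl : finrank K L = d := Nat.pow_left_injective two_ne_zero (hdeg.trans hd)
  exact pow_finrank_eq_one (L₀ := L)
    ((restriction_eq_one_iff _ _).2 ⟨_, Module.finrank_pos.ne', ⟨f⟩⟩)

/-- **A prime dividing the index divides the period.** -/
theorem prime_dvd_orderOf (hd : finrank K D = d ^ 2) {p : ℕ} (hp : p.Prime) (hpd : p ∣ d) :
    p ∣ orderOf (mk ({ __ := AlgCat.of K D } : CSA.{u, u} K)) := by
  set x := mk ({ __ := AlgCat.of K D } : CSA.{u, u} K)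
  by_contra hndvd
  obtain ⟨L₀, _, _, _, _, h₀⟩ := exists_separable_restriction_eq_one x
  obtain ⟨N, _, _, _, _, ⟨g⟩⟩ := exists_galois_closure K L₀
  have : Fact p.Prime := ⟨hp⟩
  let P : Sylow p (N ≃ₐ[K] N) := default
  let M : IntermediateField K N := fixedField (P : Subgroup (N ≃ₐ[K] N))
  obtain ⟨a, ha⟩ := IsPGroup.iff_card.1 P.isPGroup'
  have hMN : finrank M N = p ^ a := (finrank_fixedField_eq_card _).trans ha
  have hx : restriction M x = 1 := by
    refine eq_one_of_coprime (M := N) (n := orderOf x) ?_ ?_ ?_
    · rw [← map_pow, pow_orderOf_eq_one, map_one]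
    · rw [hMN]
      exact Nat.Coprime.pow_right _ ((hp.coprime_iff_not_dvd).2 hndvd).symm
    · rw [restriction_restriction]
      exact restriction_eq_one_of_algHom g h₀
  obtain ⟨d', -, ⟨e⟩⟩ := (restriction_eq_one_iff M _).1 hx
  obtain ⟨hd', hdvd⟩ := dvd_finrank_of_split (D := D) e
  obtain rfl : d = d' := Nat.pow_left_injective two_ne_zero (hd.symm.trans hd')
  have h := Module.finrank_mul_finrank K M N
  rw [hMN, ← IsGalois.card_aut_eq_finrank K N, ← (P : Subgroup (N ≃ₐ[K] N)).card_mul_index, ha,
    mul_comm (finrank K M)] at h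
  exact P.not_dvd_index (Nat.eq_of_mul_eq_mul_left (pow_pos hp.pos a) h ▸ hpd.trans hdvd)

end FA.BrauerLocal

end
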