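import Fermat.Agent.BrauerLocal.Cyclic

/-!
# The torsion of the Brauer group of a completion

For every cyclic extension of degree `n` of a completion `k` the classes it splits are exactly the
classes killed by `n`. For a prime `n` one climbs the tower of a splitting field.
-/

set_option autoImplicit false
set_option linter.style.haveILetI false

noncomputable section

open NumberField IsDedekindDomain Module IntermediateField
open FA.LocalCFT FA.BrauerTheory
open FA.QuadFormsNF (charZero_completion)
open scoped TensorProduct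

namespace FA.BrauerLocal

/-- The elements killed by `m` of a finite cyclic group, when `m` divides the order. -/
theorem ncard_pow_eq_one {G : Type*} [CommGroup G] (C : Subgroup G) [Finite C] [IsCyclic C] {m : ℕ}
    (hm : m ∣ Nat.card C) : {y : G | y ∈ C ∧ y ^ m = 1}.ncard = m := by
  rw [← Nat.card_coe_set_eq]
  let e : {y : G | y ∈ C ∧ y ^ m = 1} ≃ (powMonoidHom m : C →* C).ker :=
    { toFun := fun y => ⟨⟨y, y.2.1⟩, Subtype.ext y.2.2⟩
      invFun := fun c => ⟨c.1, c.1.2, congrArg Subtype.val c.2⟩
      left_inv := fun _ => rfl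
      right_inv := fun _ => rfl }
  rw [Nat.card_congr e, IsCyclic.card_powMonoidHom_ker, Nat.gcd_eq_right hm]

/-- In a group where the elements killed by `m` lie in a set of `m` elements, a cyclic subgroup of
order a multiple of `m` contains them. -/
theorem mem_of_pow_eq_one {G : Type*} [CommGroup G] (C T : Subgroup G) [Finite C] [IsCyclic C]
    [Finite T] {m : ℕ} (hm : m ∣ Nat.card C) (hT : Nat.card T = m)
    (h : ∀ y : G, y ^ m = 1 → y ∈ T) {y : G} (hy : y ^ m = 1) : y ∈ C := by
  have heq : {y : G | y ∈ C ∧ y ^ m = 1} = (T : Set G) := Set.eq_of_subset_of_ncard_le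
    (fun z hz => h z hz.2) (by rw [ncard_pow_eq_one C hm, ← Nat.card_coe_set_eq]; exact hT.le)
    (Set.toFinite _)
  have : y ∈ (T : Set G) := h y hy
  rw [← heq] at this
  exact this.1

variable {K : Type} [Field K] [NumberField K] {v : HeightOneSpectrum (𝓞 K)}

/-- The relative Brauer group of a cyclic extension is finite. -/
theorem finite_ker (E : Type) [Field E] [Algebra (v.adicCompletion K) E]
    [FiniteDimensional (v.adicCompletion K) E] [IsGalois (v.adicCompletion K) E]
    [IsCyclic (E ≃ₐ[v.adicCompletion K] E)] :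
    Finite (restriction (K := v.adicCompletion K) E).ker :=
  Nat.finite_of_card_ne_zero (by rw [card_ker_restriction]; exact Module.finrank_pos.ne')

/-- The statement for classes split by extensions whose group is a `p`-group. -/
theorem restriction_eq_one_of_pGroup {p : ℕ} [hp : Fact p.Prime] (j : ℕ) :
    ∀ {K : Type} [Field K] [NumberField K] {v : HeightOneSpectrum (𝓞 K)}
      (x : BrauerGroup.{0, 0} (v.adicCompletion K)), x ^ p = 1 →
      ∀ (L : Type) [Field L] [Algebra (v.adicCompletion K) L]
        [FiniteDimensional (v.adicCompletion K) L] [IsGalois (v.adicCompletion K) L],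
        Nat.card (L ≃ₐ[v.adicCompletion K] L) = p ^ j → restriction L x = 1 →
      ∀ (E : Type) [Field E] [Algebra (v.adicCompletion K) E]
        [FiniteDimensional (v.adicCompletion K) E] [IsGalois (v.adicCompletion K) E]
        [IsCyclic (E ≃ₐ[v.adicCompletion K] E)],
        finrank (v.adicCompletion K) E = p → restriction E x = 1 := by
  induction j with
  | zero =>
    intro K _ _ v x _ L _ _ _ _ hL hx E _ _ _ _ _ _
    rw [pow_zero, IsGalois.card_aut_eq_finrank] at hL
    rw [← restriction_self x, restriction_eq_one_of_algHom (equivOfFinrankEq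
      (Algebra.ofId (v.adicCompletion K) L) (by rw [hL, Module.finrank_self])).symm.toAlgHom hx,
      map_one]
  | succ j ih =>
    intro K _ _ v x hxp L _ _ _ _ hL hx E _ _ _ _ _ hE
    set k := v.adicCompletion K
    haveI := charZero_completion v
    -- the cyclic step at the bottom of the tower
    obtain ⟨S, hS⟩ := Sylow.exists_subgroup_card_pow_prime p (G := L ≃ₐ[k] L) (n := j)
      (hL ▸ pow_dvd_pow p j.le_succ)
    have hidx : S.index = p := by
      have h := S.card_mul_index
      rw [hS, hL, pow_succ] at h
      exact Nat.eq_of_mul_eq_mul_left (pow_pos hp.out.pos j) h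
    have : S.Normal := S.normal_of_index_eq_minFac_card (by
      rw [hidx, hL, Nat.pow_minFac j.succ_ne_zero, hp.out.minFac_eq])
    let M₀ : IntermediateField k L := fixedField S
    have hM₀ : finrank M₀ L = p ^ j := (finrank_fixedField_eq_card S).trans hS
    have hM₀k : finrank k M₀ = p := by
      have h := Module.finrank_mul_finrank k M₀ L
      rw [hM₀, ← IsGalois.card_aut_eq_finrank k L, hL, pow_succ, mul_comm (p ^ j)] at h
      exact Nat.eq_of_mul_eq_mul_right (pow_pos hp.out.pos j) h
    obtain ⟨F, _, _, w, _, ⟨e⟩⟩ := exists_completion_algEquiv v M₀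
    set M := w.adicCompletion F
    haveI : FiniteDimensional k M := e.toLinearEquiv.finiteDimensional
    haveI : IsGalois k M := IsGalois.of_algEquiv e
    have hMk : finrank k M = p := e.toLinearEquiv.finrank_eq.symm.trans hM₀k
    haveI : IsCyclic (M ≃ₐ[k] M) :=
      isCyclic_of_prime_card ((IsGalois.card_aut_eq_finrank k M).trans hMk)
    let _ : Algebra M L := (M₀.val.comp e.symm.toAlgHom).toRingHom.toAlgebra
    haveI : IsScalarTower k M L := IsScalarTower.of_algebraMap_eq fun c =>
      ((M₀.val.comp e.symm.toAlgHom).commutes c).symm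
    haveI : FiniteDimensional M L := Module.Finite.of_restrictScalars_finite k M L
    haveI : IsGalois M L := IsGalois.tower_top_of_isGalois k M L
    have hML : Nat.card (L ≃ₐ[M] L) = p ^ j := by
      have h := Module.finrank_mul_finrank k M L
      rw [hMk, ← IsGalois.card_aut_eq_finrank k L, hL, pow_succ, mul_comm (p ^ j)] at h
      rw [IsGalois.card_aut_eq_finrank]
      exact Nat.eq_of_mul_eq_mul_left hp.out.pos h
    have hxM : restriction M x ^ p = 1 := by rw [← map_pow, hxp, map_one]
    have hstep := ih (restriction M x) hxM L hML ((restriction_restriction M L x).trans hx)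
    -- a cyclic extension of degree `p ^ 2`
    haveI : NeZero (p ^ 2) := ⟨pow_ne_zero 2 hp.out.ne_zero⟩
    obtain ⟨F₂, _, _, _, _, hF₂c, hF₂⟩ := exists_cyclic_extension v (p ^ 2)
    obtain ⟨S₂, hS₂⟩ := Sylow.exists_subgroup_card_pow_prime p (G := F₂ ≃ₐ[k] F₂) (n := 1)
      (by rw [IsGalois.card_aut_eq_finrank, hF₂]; exact pow_dvd_pow p one_le_two)
    haveI : IsMulCommutative (F₂ ≃ₐ[k] F₂) := IsCyclic.isMulCommutative
    haveI : S₂.Normal := Subgroup.normal_of_isMulCommutative S₂
    let E₂ : IntermediateField k F₂ := fixedField S₂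
    have hE₂ : finrank k E₂ = p := by
      have h := Module.finrank_mul_finrank k E₂ F₂
      rw [show finrank E₂ F₂ = p from (finrank_fixedField_eq_card S₂).trans (hS₂.trans (pow_one p)),
        hF₂, sq] at h
      exact Nat.eq_of_mul_eq_mul_right hp.out.pos h
    haveI : IsCyclic (E₂ ≃ₐ[k] E₂) :=
      isCyclic_of_prime_card ((IsGalois.card_aut_eq_finrank k E₂).trans hE₂)
    refine restriction_eq_one_of_prime hp.out hE₂ hE ?_
    -- a completion over which `F₂` is cyclic of degree `p` and which kills `x` with it
    suffices hkill : restriction F₂ x = 1 by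
      haveI := finite_ker (v := v) F₂
      haveI := finite_ker (v := v) E₂
      haveI := isCyclic_ker_restriction v F₂
      haveI := isCyclic_ker_restriction v E₂
      have hsub : ∀ y, y ∈ (restriction (K := k) E₂).ker →
          y ∈ (restriction (K := k) F₂).ker ∧ y ^ p = 1 := fun y hy =>
        ⟨restriction_eq_one_of_algHom E₂.val hy, hE₂ ▸ pow_eq_one_of_cyclic hy⟩
      have heq : ((restriction (K := k) E₂).ker : Set (BrauerGroup.{0, 0} k)) =
          {y | y ∈ (restriction (K := k) F₂).ker ∧ y ^ p = 1} := by
        have hF : {y | y ∈ (restriction (K := k) F₂).ker ∧ y ^ p = 1}.Finite :=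
          (Set.toFinite ((restriction (K := k) F₂).ker : Set (BrauerGroup.{0, 0} k))).subset
            fun y hy => hy.1
        refine Set.eq_of_subset_of_ncard_le hsub ?_ hF
        rw [ncard_pow_eq_one _ (by rw [card_ker_restriction, hF₂]; exact dvd_pow_self p two_ne_zero),
          ← Nat.card_coe_set_eq]
        exact le_of_eq ((card_ker_restriction v E₂).trans hE₂).symm
      exact (Set.ext_iff.1 heq x).2 ⟨hkill, hxp⟩
    by_cases hEM : Nonempty (E₂ →ₐ[k] M)
    · obtain ⟨f⟩ := hEM
      let f' : E₂ ≃ₐ[k] M := equivOfFinrankEq f (hE₂.trans hMk.symm)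
      let _ : Algebra M F₂ := (E₂.val.comp f'.symm.toAlgHom).toRingHom.toAlgebra
      haveI : IsScalarTower k M F₂ := IsScalarTower.of_algebraMap_eq fun c =>
        ((E₂.val.comp f'.symm.toAlgHom).commutes c).symm
      haveI : FiniteDimensional M F₂ := Module.Finite.of_restrictScalars_finite k M F₂
      haveI : IsGalois M F₂ := IsGalois.tower_top_of_isGalois k M F₂
      have hd : finrank M F₂ = p := by
        have h := Module.finrank_mul_finrank k M F₂
        rw [hMk, hF₂, sq] at h
        exact Nat.eq_of_mul_eq_mul_left hp.out.pos h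
      haveI : IsCyclic (F₂ ≃ₐ[M] F₂) :=
        isCyclic_of_prime_card ((IsGalois.card_aut_eq_finrank M F₂).trans hd)
      rw [← restriction_restriction M F₂]
      exact hstep F₂ hd
    · obtain ⟨F', _, _, w', _, ⟨e₂⟩⟩ := exists_completion_algEquiv v E₂
      set E' := w'.adicCompletion F'
      haveI : FiniteDimensional k E' := e₂.toLinearEquiv.finiteDimensional
      haveI : IsGalois k E' := IsGalois.of_algEquiv e₂
      haveI : IsCyclic (E' ≃ₐ[k] E') := isCyclic_of_surjective e₂.autCongr.toMonoidHom
        e₂.autCongr.surjective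
      have hE' : finrank k E' = p := e₂.toLinearEquiv.finrank_eq.symm.trans hE₂
      have hno : IsEmpty (E' →ₐ[k] M) := ⟨fun f => hEM ⟨f.comp e₂.toAlgHom⟩⟩
      have hno' : IsEmpty (M →ₐ[k] E') :=
        ⟨fun f => hno.elim (equivOfFinrankEq f (hMk.trans hE'.symm)).symm.toAlgHom⟩
      have hF := isField_tensor_of_prime hp.out hE' hno
      have hF' := isField_tensor_of_prime hp.out hMk hno'
      letI : Field (M ⊗[k] E') := hF.toField
      letI : Field (E' ⊗[k] M) := hF'.toField
      obtain ⟨_, _, _, hd, -⟩ := tensor_facts hF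
      obtain ⟨_, _, _, hd', -⟩ := tensor_facts hF'
      have h₁ : restriction (M ⊗[k] E') x = 1 := by
        rw [← restriction_restriction M (M ⊗[k] E')]
        exact hstep _ (hd.trans hE')
      have h₂ : restriction (E' ⊗[k] M) (restriction E' x) = 1 := by
        rw [restriction_restriction]
        exact restriction_eq_one_of_algHom (Algebra.TensorProduct.comm k M E').toAlgHom h₁
      let _ : Algebra E' F₂ := (E₂.val.comp e₂.symm.toAlgHom).toRingHom.toAlgebra
      haveI : IsScalarTower k E' F₂ := IsScalarTower.of_algebraMap_eq fun c =>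
        ((E₂.val.comp e₂.symm.toAlgHom).commutes c).symm
      haveI : FiniteDimensional E' F₂ := Module.Finite.of_restrictScalars_finite k E' F₂
      haveI : IsGalois E' F₂ := IsGalois.tower_top_of_isGalois k E' F₂
      have hdF : finrank E' F₂ = p := by
        have h := Module.finrank_mul_finrank k E' F₂
        rw [hE', hF₂, sq] at h
        exact Nat.eq_of_mul_eq_mul_left hp.out.pos h
      haveI : IsCyclic (F₂ ≃ₐ[E'] F₂) :=
        isCyclic_of_prime_card ((IsGalois.card_aut_eq_finrank E' F₂).trans hdF)
      rw [← restriction_restriction E' F₂]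
      exact restriction_eq_one_of_prime hp.out (hd'.trans hMk) hdF h₂

/-- **The `p`-torsion is the relative Brauer group of any cyclic extension of degree `p`.** -/
theorem restriction_eq_one_of_pow_prime {p : ℕ} [hp : Fact p.Prime]
    {x : BrauerGroup.{0, 0} (v.adicCompletion K)} (hxp : x ^ p = 1) (E : Type) [Field E]
    [Algebra (v.adicCompletion K) E] [FiniteDimensional (v.adicCompletion K) E]
    [IsGalois (v.adicCompletion K) E] [IsCyclic (E ≃ₐ[v.adicCompletion K] E)]
    (hE : finrank (v.adicCompletion K) E = p) : restriction E x = 1 := by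
  set k := v.adicCompletion K
  haveI := charZero_completion v
  obtain ⟨L₀, _, _, _, _, h₀⟩ := exists_separable_restriction_eq_one x
  obtain ⟨N, _, _, _, _, ⟨g⟩⟩ := exists_galois_closure k L₀
  let P : Sylow p (N ≃ₐ[k] N) := default
  let M₀ : IntermediateField k N := fixedField (P : Subgroup (N ≃ₐ[k] N))
  obtain ⟨a, ha⟩ := IsPGroup.iff_card.1 P.isPGroup'
  obtain ⟨F, _, _, w, _, ⟨e⟩⟩ := exists_completion_algEquiv v M₀
  set M := w.adicCompletion F
  haveI := charZero_completion w
  haveI : FiniteDimensional k M := e.toLinearEquiv.finiteDimensional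
  let _ : Algebra M N := (M₀.val.comp e.symm.toAlgHom).toRingHom.toAlgebra
  haveI : IsScalarTower k M N := IsScalarTower.of_algebraMap_eq fun c =>
    ((M₀.val.comp e.symm.toAlgHom).commutes c).symm
  haveI : FiniteDimensional M N := Module.Finite.of_restrictScalars_finite k M N
  haveI : IsGalois M N := IsGalois.tower_top_of_isGalois k M N
  have hMN₀ : finrank M₀ N = p ^ a := (finrank_fixedField_eq_card _).trans ha
  have hco : Nat.Coprime p (finrank k M) := by
    rw [← e.toLinearEquiv.finrank_eq, hp.out.coprime_iff_not_dvd]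
    intro hdvd
    have h := Module.finrank_mul_finrank k M₀ N
    rw [hMN₀, ← IsGalois.card_aut_eq_finrank k N,
      ← (P : Subgroup (N ≃ₐ[k] N)).card_mul_index, ha, mul_comm (finrank k M₀)] at h
    exact P.not_dvd_index (Nat.eq_of_mul_eq_mul_left (pow_pos hp.out.pos a) h ▸ hdvd)
  have hMN : Nat.card (N ≃ₐ[M] N) = p ^ a := by
    rw [IsGalois.card_aut_eq_finrank, ← hMN₀]
    refine Nat.eq_of_mul_eq_mul_left (Module.finrank_pos (R := k) (M := M)) ?_
    rw [Module.finrank_mul_finrank, ← e.toLinearEquiv.finrank_eq, Module.finrank_mul_finrank]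
  haveI : NeZero p := ⟨hp.out.ne_zero⟩
  obtain ⟨E', _, _, _, _, _, hE'⟩ := exists_cyclic_extension w p
  have hkill : ∀ y : BrauerGroup.{0, 0} k, y ^ p = 1 → restriction N y = 1 →
      restriction E' (restriction M y) = 1 := fun y hy hyN =>
    restriction_eq_one_of_pGroup a (restriction M y) (by rw [← map_pow, hy, map_one]) N hMN
      ((restriction_restriction M N y).trans hyN) E' hE'
  have hno : IsEmpty (E →ₐ[k] M) := ⟨fun f => by
    let _ : Algebra E M := f.toRingHom.toAlgebra
    haveI : IsScalarTower k E M := IsScalarTower.of_algebraMap_eq fun c => (f.commutes c).symm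
    exact (hp.out.coprime_iff_not_dvd.1 hco) ⟨finrank E M, by
      rw [← hE, Module.finrank_mul_finrank]⟩⟩
  have hF := isField_tensor_of_prime hp.out hE hno
  have hkillE : ∀ y ∈ (restriction (K := k) E).ker, restriction E' (restriction M y) = 1 := by
    intro y hy
    letI : Field (M ⊗[k] E) := hF.toField
    obtain ⟨_, _, _, hd, -⟩ := tensor_facts hF
    refine restriction_eq_one_of_prime hp.out (hd.trans hE) hE' ?_
    rw [restriction_restriction]
    exact restriction_eq_one_of_algHom
      (Algebra.TensorProduct.includeRight : E →ₐ[k] M ⊗[k] E) hy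
  have hinj : ∀ y : BrauerGroup.{0, 0} k, y ^ p = 1 → restriction M y = 1 → y = 1 :=
    fun y hy hyM => eq_one_of_coprime hy hco hyM
  haveI := finite_ker (v := w) E'
  haveI := finite_ker (v := v) E
  set C := (restriction (K := k) E).ker
  set T := (restriction (K := M) E').ker
  let φ : C → T := fun y => ⟨restriction M (y : BrauerGroup.{0, 0} k), hkillE _ y.2⟩
  have hCp : ∀ y ∈ C, y ^ p = 1 := fun y hy => hE ▸ pow_eq_one_of_cyclic hy
  have hφ : Function.Bijective φ := by
    refine (Nat.bijective_iff_injective_and_card _).2 ⟨fun y z h => Subtype.ext (div_eq_one.1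
      (hinj _ (by rw [div_pow, hCp y y.2, hCp z z.2, div_one]) (by
        rw [map_div, div_eq_one]
        exact congrArg Subtype.val h))), ?_⟩
    rw [card_ker_restriction v E, hE, card_ker_restriction w E', hE']
  obtain ⟨y, hy⟩ := hφ.2 ⟨restriction M x, hkill x hxp (restriction_eq_one_of_algHom g h₀)⟩
  have hxy : x = (y : BrauerGroup.{0, 0} k) := div_eq_one.1 (hinj _
    (by rw [div_pow, hxp, hCp y y.2, div_one]) (by
      rw [map_div, div_eq_one]
      exact (congrArg Subtype.val hy).symm))
  rw [hxy]
  exact y.2

/-- **The classes killed by `n` are those split by any cyclic extension of degree `n`.** -/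
theorem restriction_eq_one_of_pow {n : ℕ} :
    ∀ {x : BrauerGroup.{0, 0} (v.adicCompletion K)}, x ^ n = 1 → ∀ (E : Type) [Field E]
      [Algebra (v.adicCompletion K) E] [FiniteDimensional (v.adicCompletion K) E]
      [IsGalois (v.adicCompletion K) E] [IsCyclic (E ≃ₐ[v.adicCompletion K] E)],
      finrank (v.adicCompletion K) E = n → restriction E x = 1 := by
  induction n using Nat.strong_induction_on with
  | _ n ih =>
    intro x hxn E _ _ _ _ _ hE
    rcases eq_or_ne n 1 with rfl | hn1
    · rw [pow_one] at hxn
      rw [hxn, map_one]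
    have hn0 : n ≠ 0 := hE ▸ Module.finrank_pos.ne'
    set p := n.minFac
    have hp : Fact p.Prime := ⟨Nat.minFac_prime hn1⟩
    obtain ⟨m, hm⟩ := Nat.minFac_dvd n
    have hm0 : m ≠ 0 := fun h => hn0 (by rw [hm, h, mul_zero])
    have hmn : m < n := by
      rw [hm]
      exact lt_mul_of_one_lt_left (Nat.pos_of_ne_zero hm0) hp.out.one_lt
    set k := v.adicCompletion K
    haveI := finite_ker (v := v) E
    haveI := isCyclic_ker_restriction v E
    have hC : Nat.card (restriction (K := k) E).ker = n := (card_ker_restriction v E).trans hE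
    have hmem : ∀ d, d ∣ n → d ≠ 0 → (d < n ∨ d.Prime) → ∀ y : BrauerGroup.{0, 0} k, y ^ d = 1 →
        y ∈ (restriction (K := k) E).ker := by
      intro d hdn hd0 hd y hy
      haveI : NeZero d := ⟨hd0⟩
      obtain ⟨E₁, _, _, _, _, _, hE₁⟩ := exists_cyclic_extension v d
      haveI := finite_ker (v := v) E₁
      refine mem_of_pow_eq_one _ (restriction (K := k) E₁).ker (hC.symm ▸ hdn)
        ((card_ker_restriction v E₁).trans hE₁) (fun z hz => ?_) hy
      rcases hd with hd | hd
      · exact ih d hd hz E₁ hE₁
      · haveI : Fact d.Prime := ⟨hd⟩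
        exact restriction_eq_one_of_pow_prime hz E₁ hE₁
    have hxp : (x ^ p) ^ m = 1 := by rw [← pow_mul, ← hm, hxn]
    have hyC := hmem m ⟨p, hm.trans (mul_comm _ _)⟩ hm0 (Or.inl hmn) _ hxp
    obtain ⟨γ, hγ⟩ := IsCyclic.exists_generator (α := (restriction (K := k) E).ker)
    obtain ⟨i, hi⟩ := Subgroup.mem_zpowers_iff.1 (hγ ⟨_, hyC⟩)
    have hord : orderOf γ = n := (orderOf_eq_card_of_forall_mem_zpowers hγ).trans hC
    have hdiv : (p : ℤ) ∣ i := by
      have h : γ ^ (i * (m : ℤ)) = 1 := by
        rw [zpow_mul, hi, zpow_natCast]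
        exact Subtype.ext hxp
      rw [← orderOf_dvd_iff_zpow_eq_one, hord, hm, Nat.cast_mul] at h
      exact Int.dvd_of_mul_dvd_mul_right (by exact_mod_cast hm0) h
    obtain ⟨i', rfl⟩ := hdiv
    set c := γ ^ i' with hc
    set z : BrauerGroup.{0, 0} k := (c : BrauerGroup.{0, 0} k)
    have hzp : (x / z) ^ p = 1 := by
      rw [div_pow, div_eq_one]
      have h := congrArg Subtype.val hi
      rw [mul_comm, zpow_mul, zpow_natCast] at h
      exact h.symm
    have hmul := Subgroup.mul_mem _ (hmem p (Nat.minFac_dvd n) hp.out.ne_zero (Or.inr hp.out) _ hzp)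
      c.2
    rwa [show x / z * z = x from div_mul_cancel x z] at hmul

end FA.BrauerLocal

end
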