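import Fermat.Agent.BrauerLocal.RatModInt
import Fermat.Agent.BrauerLocal.Torsion
import Fermat.Agent.BrauerTheory.Cancel

/-!
# The Brauer group of a completion is `ℚ / ℤ`
-/

set_option autoImplicit false
set_option linter.style.haveILetI false

noncomputable section

open NumberField IsDedekindDomain Module
open FA.BrauerTheory
open scoped TensorProduct

namespace FA.BrauerLocal

variable {K : Type} [Field K] [NumberField K] {v : HeightOneSpectrum (𝓞 K)}

/-- **Every class is killed by some positive integer.** -/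
theorem exists_pow_eq_one {F : Type} [Field F] (x : BrauerGroup.{0, 0} F) :
    ∃ n : ℕ, n ≠ 0 ∧ x ^ n = 1 := by
  obtain ⟨L, _, _, _, _, h⟩ := exists_separable_restriction_eq_one x
  exact ⟨finrank F L, Module.finrank_pos.ne', pow_finrank_eq_one h⟩

/-- **The kernel of the restriction to a cyclic extension of degree `n` is the `n`-torsion.** -/
theorem mem_ker_iff {n : ℕ} (E : Type) [Field E] [Algebra (v.adicCompletion K) E]
    [FiniteDimensional (v.adicCompletion K) E] [IsGalois (v.adicCompletion K) E]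
    [IsCyclic (E ≃ₐ[v.adicCompletion K] E)] (hE : finrank (v.adicCompletion K) E = n)
    (x : BrauerGroup.{0, 0} (v.adicCompletion K)) : restriction E x = 1 ↔ x ^ n = 1 :=
  ⟨fun h => hE ▸ pow_eq_one_of_cyclic h, fun h => restriction_eq_one_of_pow h E hE⟩

/-- **`Br(K_v) ≅ ℚ / ℤ`.** -/
theorem nonempty_addEquiv (v : HeightOneSpectrum (𝓞 K)) :
    Nonempty (Additive (BrauerGroup.{0, 0} (v.adicCompletion K)) ≃+
      ℚ ⧸ AddSubgroup.zmultiples (1 : ℚ)) := by
  refine nonempty_addEquiv_ratModInt (fun n hn => ?_) exists_pow_eq_one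
  haveI : NeZero n := ⟨hn⟩
  obtain ⟨E, _, _, _, _, _, hE⟩ := exists_cyclic_extension v n
  haveI := isCyclic_ker_restriction v E
  obtain ⟨γ, hγ⟩ := IsCyclic.exists_generator
    (α := (restriction (K := v.adicCompletion K) E).ker)
  refine ⟨γ, ?_, fun y hy => ?_⟩
  · rw [Subgroup.orderOf_coe, orderOf_eq_card_of_forall_mem_zpowers hγ, card_ker_restriction, hE]
  · obtain ⟨i, hi⟩ := Subgroup.mem_zpowers_iff.1 (hγ ⟨y, (mem_ker_iff E hE y).2 hy⟩)
    exact ⟨i, congrArg Subtype.val hi⟩

/-- **Period equals index.** -/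
theorem orderOf_eq_degree {D : Type} [DivisionRing D] [Algebra (v.adicCompletion K) D]
    [FiniteDimensional (v.adicCompletion K) D] [Algebra.IsCentral (v.adicCompletion K) D] {d : ℕ}
    (hd : finrank (v.adicCompletion K) D = d ^ 2) :
    orderOf (mk ({ __ := AlgCat.of _ D } : CSA.{0, 0} (v.adicCompletion K))) = d := by
  set x := mk ({ __ := AlgCat.of _ D } : CSA.{0, 0} (v.adicCompletion K))
  have h1 : orderOf x ∣ d := orderOf_dvd_of_pow_eq_one (pow_degree_eq_one hd)
  have hd0 : d ≠ 0 := fun h => (Module.finrank_pos (R := v.adicCompletion K) (M := D)).ne'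
    (by rw [hd, h, zero_pow two_ne_zero])
  haveI : NeZero (orderOf x) := ⟨fun h => hd0 (Nat.eq_zero_of_zero_dvd (h ▸ h1))⟩
  obtain ⟨E, _, _, _, _, _, hE⟩ := exists_cyclic_extension v (orderOf x)
  obtain ⟨d', -, ⟨e⟩⟩ := (restriction_eq_one_iff E _).1
    ((mem_ker_iff E hE x).2 (pow_orderOf_eq_one x))
  obtain ⟨hd', hdvd⟩ := dvd_finrank_of_split (D := D) e
  obtain rfl : d = d' := Nat.pow_left_injective two_ne_zero (hd.symm.trans hd')
  exact Nat.dvd_antisymm h1 (hE ▸ hdvd)

/-- **A central simple algebra of degree `n` is cyclic for every cyclic extension of degree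
`n`.** -/
theorem exists_presentation (A : CSA.{0, 0} (v.adicCompletion K)) {E : Type} [Field E]
    [Algebra (v.adicCompletion K) E] [FiniteDimensional (v.adicCompletion K) E]
    [IsGalois (v.adicCompletion K) E] {σ : E ≃ₐ[v.adicCompletion K] E}
    (hσ : ∀ g, g ∈ Subgroup.zpowers σ)
    (hA : finrank (v.adicCompletion K) A = finrank (v.adicCompletion K) E ^ 2) :
    ∃ a, a ≠ 0 ∧ Nonempty (FA.CyclicAlgebra.Presentation σ a A) := by
  haveI : IsCyclic (E ≃ₐ[v.adicCompletion K] E) := ⟨⟨σ, hσ⟩⟩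
  have hkill : restriction E (mk A) = 1 := by
    refine (mem_ker_iff E rfl _).2 ?_
    obtain ⟨D, _, _, _, _, r, hr, ⟨g⟩⟩ := exists_algEquiv_matrix_division A
    have hD : mk A = mk ({ __ := AlgCat.of _ D } : CSA.{0, 0} (v.adicCompletion K)) :=
      mk_eq_iff.2 (equivalent_of_algEquiv_matrix hr g)
    obtain ⟨L, _, _, _, _, hL⟩ := exists_separable_restriction_eq_one (mk A)
    rw [hD] at hL ⊢
    obtain ⟨d, -, ⟨e⟩⟩ := (restriction_eq_one_iff L _).1 hL
    obtain ⟨hd, -⟩ := dvd_finrank_of_split (D := D) e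
    have hdim := g.toLinearEquiv.finrank_eq
    rw [Module.finrank_matrix, Fintype.card_fin, hA, hd, ← sq, ← mul_pow] at hdim
    rw [Nat.pow_left_injective two_ne_zero hdim, mul_comm, pow_mul, pow_degree_eq_one hd, one_pow]
  obtain ⟨a, ha⟩ := exists_cyclicHom_eq hσ A hkill
  obtain ⟨P, hP⟩ := (exists_cyclicCSA hσ a).choose_spec
  obtain ⟨e⟩ := nonempty_algEquiv_of_mk_eq ha (hP.trans hA.symm)
  exact ⟨a, a.ne_zero, ⟨P.map e⟩⟩

end FA.BrauerLocal

end
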