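import Fermat.Agent.BrauerTheory.Relative

/-!
# Base change of cyclic algebras

If `M ⊗ L` is a field then `(L/K, σ, a)` becomes `(M ⊗ L/M, σ, a)` over `M`.
-/

set_option autoImplicit false

noncomputable section

universe u

open Module
open scoped TensorProduct

namespace FA.BrauerLocal

open FA.BrauerTheory FA.CyclicAlgebra

variable {K : Type u} [Field K] {L : Type u} [Field L] [Algebra K L] [FiniteDimensional K L]
  [IsGalois K L] {σ : L ≃ₐ[K] L} {M : Type u} [Field M] [Algebra K M] {L' : Type u} [Field L']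
  [Algebra M L'] [FiniteDimensional M L'] [IsGalois M L'] {σ' : L' ≃ₐ[M] L'}

/-- **Base change of cyclic algebras.** -/
theorem restriction_cyclicHom_baseChange (hσ : ∀ g, g ∈ Subgroup.zpowers σ)
    (hσ' : ∀ g, g ∈ Subgroup.zpowers σ') (e : M ⊗[K] L ≃ₐ[M] L')
    (he : ∀ l : L, σ' (e (1 ⊗ₜ l)) = e (1 ⊗ₜ σ l)) (a : Kˣ) :
    restriction M (cyclicHom hσ a) = cyclicHom hσ' (Units.map (algebraMap K M).toMonoidHom a) := by
  obtain ⟨P, hA⟩ := (exists_cyclicCSA hσ a).choose_spec
  set A := (exists_cyclicCSA hσ a).choose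
  have hdeg : finrank M L' = finrank K L := by
    rw [← e.toLinearEquiv.finrank_eq, Module.finrank_baseChange]
  have he' : ∀ (m : M) (l : L), σ' (e (m ⊗ₜ l)) = e (m ⊗ₜ σ l) := fun m l => by
    rw [show m ⊗ₜ[K] l = m • ((1 : M) ⊗ₜ[K] l) by simp [TensorProduct.smul_tmul'], map_smul,
      map_smul, he, ← map_smul, TensorProduct.smul_tmul', smul_eq_mul, mul_one]
  let F := Algebra.TensorProduct.map (AlgHom.id M M) P.f
  let Q : Presentation σ' ((Units.map (algebraMap K M).toMonoidHom a : Mˣ) : M)
      (M ⊗[K] (A : Type u)) :=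
    { f := F.comp e.symm.toAlgHom
      u := 1 ⊗ₜ P.u
      conj := fun y => by
        obtain ⟨z, rfl⟩ := e.surjective y
        induction z using TensorProduct.induction_on with
        | zero => simp
        | add z w hz hw =>
          simp only [map_add, mul_add, add_mul] at hz hw ⊢
          rw [hz, hw]
        | tmul m l => simp [F, he', Algebra.TensorProduct.tmul_mul_tmul, P.conj]
      pow_eq := by
        rw [Algebra.TensorProduct.tmul_pow, one_pow, hdeg, P.pow_eq]
        simp [Algebra.algebraMap_eq_smul_one, Algebra.TensorProduct.one_def,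
          TensorProduct.tmul_smul, TensorProduct.smul_tmul'] }
  exact (cyclicClass_eq hσ' _ (A := baseChangeCSA M A) Q
    ((Module.finrank_baseChange).trans (by rw [hA, hdeg]))).symm

end FA.BrauerLocal

end
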