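import Fermat.Agent.BrauerLocal.Exponent
import Fermat.Agent.LocalCFT.Abelian

/-!
# Extensions of completions

A finite extension of a completion of a number field is again such a completion, there is a cyclic
extension of every degree, and a cyclic extension is determined by its norm group.
-/

set_option autoImplicit false
set_option linter.style.haveILetI false

noncomputable section

open NumberField IsDedekindDomain Module IntermediateField WithZero Polynomial
open FA.LocalCFT FA.ArtinRec
open FA.QuadFormsNF (charZero_completion valued_algebraMap)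
open scoped Pointwise

namespace FA.BrauerLocal

variable {K : Type} [Field K] [NumberField K] (v : HeightOneSpectrum (𝓞 K))

/-- A subfield of the completion of a Galois extension, over the completion below, is a
completion. -/
theorem exists_completion_of_intermediate {M : Type} [Field M] [NumberField M] [Algebra K M]
    [IsGalois K M] (Q : HeightOneSpectrum (𝓞 M))
    (A : IntermediateField ((belowP K Q).adicCompletion K) (Q.adicCompletion M)) :
    ∃ (F : Type) (_ : Field F) (_ : NumberField F) (w : HeightOneSpectrum (𝓞 F)),
      Nonempty (A ≃+* w.adicCompletion F) := by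
  set e := IsGaloisGroup.mulEquivAlgEquiv (MulAction.stabilizer (M ≃ₐ[K] M) Q.asIdeal)
    ((belowP K Q).adicCompletion K) (Q.adicCompletion M) with he
  set H := (A.fixingSubgroup.comap e.toMonoidHom).map
    (MulAction.stabilizer (M ≃ₐ[K] M) Q.asIdeal).subtype with hH
  set M1 := IntermediateField.fixedField H with hM1
  have hrange : ∀ z, z ∈ Set.range (belowHom (K := M1) Q) ↔ z ∈ A := fun z => by
    refine ⟨?_, fun hz => mem_range_subfield Q M1 fun d hd => ?_⟩
    · rintro ⟨t, rfl⟩
      rw [← IsGalois.fixedField_fixingSubgroup A, IntermediateField.mem_fixedField_iff]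
      intro σ hσ
      obtain ⟨d, rfl⟩ := e.surjective σ
      refine decHom_belowHom_of_fixed Q M1 d (fun x => ?_) t
      exact (IntermediateField.mem_fixedField_iff _ _).1 x.2 _ ⟨d, hσ, rfl⟩
    · have h : (d : M ≃ₐ[K] M) ∈ H := by
        rw [← IntermediateField.fixingSubgroup_fixedField H,
          IntermediateField.mem_fixingSubgroup_iff]
        exact fun x hx => hd ⟨x, hx⟩
      obtain ⟨d', hd', hdd⟩ := h
      rw [← Subtype.ext hdd]
      exact (IntermediateField.mem_fixingSubgroup_iff _ _).1 hd' z hz
  let g : (belowP M1 Q).adicCompletion M1 →+* A :=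
    (belowHom (K := M1) Q).codRestrict A.toSubfield.toSubring fun t => (hrange _).1 ⟨t, rfl⟩
  exact ⟨M1, inferInstance, inferInstance, belowP M1 Q,
    ⟨(RingEquiv.ofBijective g ⟨g.injective, fun z => by
      obtain ⟨t, ht⟩ := (hrange z).2 z.2
      exact ⟨t, Subtype.ext ht⟩⟩).symm⟩⟩

/-- **A finite extension of a completion is a completion.** -/
theorem exists_completion_algEquiv (E : Type) [Field E] [Algebra (v.adicCompletion K) E]
    [FiniteDimensional (v.adicCompletion K) E] :
    ∃ (F : Type) (_ : Field F) (_ : NumberField F) (w : HeightOneSpectrum (𝓞 F))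
      (_ : Algebra (v.adicCompletion K) (w.adicCompletion F)),
      Nonempty (E ≃ₐ[v.adicCompletion K] w.adicCompletion F) := by
  haveI := charZero_completion v
  obtain ⟨N, _, _, _, _, ⟨i⟩⟩ := exists_galois_closure (v.adicCompletion K) E
  obtain ⟨g, hg, hN⟩ := exists_splitting_poly v N
  haveI : NumberField g.SplittingField := NumberField.of_module_finite K g.SplittingField
  haveI : Normal K g.SplittingField := Normal.of_isSplittingField g
  haveI : IsGalois K g.SplittingField := ⟨⟩
  obtain ⟨Q, hQ⟩ := exists_belowP K g.SplittingField v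
  subst hQ
  haveI := isSplittingField_completion Q hg.ne_zero
  set gv := g.map (algebraMap K ((belowP K Q).adicCompletion K))
  let e : N ≃ₐ[(belowP K Q).adicCompletion K] Q.adicCompletion g.SplittingField :=
    (IsSplittingField.algEquiv N gv).trans
      (IsSplittingField.algEquiv (Q.adicCompletion g.SplittingField) gv).symm
  obtain ⟨F, _, _, w, ⟨c⟩⟩ := exists_completion_of_intermediate Q (e.toAlgHom.comp i).fieldRange
  let r := ((AlgEquiv.ofInjectiveField (e.toAlgHom.comp i)).toRingEquiv).trans c
  let _ : Algebra ((belowP K Q).adicCompletion K) (w.adicCompletion F) :=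
    (r.toRingHom.comp (algebraMap ((belowP K Q).adicCompletion K) E)).toAlgebra
  exact ⟨F, inferInstance, inferInstance, w, inferInstance, ⟨AlgEquiv.ofRingEquiv (f := r) fun _ => rfl⟩⟩

/-- The units of the completion modulo the valuation. -/
def valMod (n : ℕ) : (v.adicCompletion K)ˣ →* Multiplicative (ZMod n) where
  toFun z := Multiplicative.ofAdd ((log (Valued.v (z : v.adicCompletion K)) : ℤ) : ZMod n)
  map_one' := by simp
  map_mul' a b := by
    rw [Units.val_mul, map_mul, log_mul ((Valuation.ne_zero_iff _).2 a.ne_zero)
      ((Valuation.ne_zero_iff _).2 b.ne_zero), Int.cast_add, ofAdd_add]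

theorem valMod_surjective (n : ℕ) : Function.Surjective (valMod v n) := by
  intro m
  obtain ⟨π, hπ⟩ := v.valuation_exists_uniformizer K
  have hπ0 : π ≠ 0 := fun h => exp_ne_zero (hπ.symm.trans (by rw [h, map_zero]))
  obtain ⟨i, hi⟩ := ZMod.intCast_surjective (-Multiplicative.toAdd m)
  refine ⟨Units.map (algebraMap K (v.adicCompletion K)).toMonoidHom (Units.mk0 π hπ0) ^ i, ?_⟩
  show Multiplicative.ofAdd _ = m
  rw [Units.val_zpow_eq_zpow_val, map_zpow₀, Units.coe_map]
  show Multiplicative.ofAdd ((log (Valued.v (algebraMap K (v.adicCompletion K) π) ^ i) : ℤ) :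
    ZMod n) = m
  rw [valued_algebraMap, hπ, log_zpow, log_exp]
  simp [hi]

theorem isOpen_ker_valMod (n : ℕ) :
    IsOpen ((valMod v n).ker : Set (v.adicCompletion K)ˣ) := by
  refine Subgroup.isOpen_of_mem_nhds (g := 1) _ (Filter.mem_of_superset
    (Units.continuous_val.continuousAt.preimage_mem_nhds
      (ball_mem_nhds v (1 : v.adicCompletion K) 1)) fun z hz => ?_)
  have h : Valued.v ((z : v.adicCompletion K)) = 1 := by
    rw [← sub_add_cancel (z : v.adicCompletion K) 1, Valuation.map_add_eq_of_lt_right _
      (lt_of_le_of_lt hz (by rw [map_one]; exact exp_lt_exp.2 (by norm_num))), map_one]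
  show Multiplicative.ofAdd _ = 1
  simp [h]

/-- **There is a cyclic extension of every degree.** -/
theorem exists_cyclic_extension (n : ℕ) [NeZero n] :
    ∃ (E : Type) (_ : Field E) (_ : Algebra (v.adicCompletion K) E)
      (_ : FiniteDimensional (v.adicCompletion K) E) (_ : IsGalois (v.adicCompletion K) E),
      IsCyclic (E ≃ₐ[v.adicCompletion K] E) ∧ finrank (v.adicCompletion K) E = n := by
  have hidx : (valMod v n).ker.index = n := by
    rw [Subgroup.index_ker, MonoidHom.range_eq_top.2 (valMod_surjective v n), Subgroup.card_top,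
      Nat.card_congr Multiplicative.toAdd, Nat.card_zmod]
  obtain ⟨L, _, _, _, _, _, h⟩ := exists_ker_localArtin_eq v (isOpen_ker_valMod v n)
    (by rw [hidx]; exact NeZero.ne n)
  obtain ⟨Q, hQ⟩ := exists_belowP K L v
  subst hQ
  have e := (QuotientGroup.quotientMulEquivOfEq (((ker_galArtin Q).trans
    ((range_normC Q).trans h)))).symm.trans
      (QuotientGroup.quotientKerEquivOfSurjective _ (galArtin_surjective (K := K) Q))
  have e' := e.symm.trans (QuotientGroup.quotientKerEquivOfSurjective _
    (valMod_surjective (belowP K Q) n))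
  refine ⟨Q.adicCompletion L, inferInstance, inferInstance, inferInstance, inferInstance,
    isCyclic_of_surjective e'.symm.toMonoidHom e'.symm.surjective, ?_⟩
  rw [← IsGalois.card_aut_eq_finrank, Nat.card_congr e'.toEquiv,
    Nat.card_congr Multiplicative.toAdd, Nat.card_zmod]

variable (E : Type) [Field E] [Algebra (v.adicCompletion K) E]
  [FiniteDimensional (v.adicCompletion K) E] [IsGalois (v.adicCompletion K) E]
  [IsCyclic (E ≃ₐ[v.adicCompletion K] E)]

/-- The index of the norm group of a cyclic extension is the degree. -/
theorem index_normGroup :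
    (normGroup (v.adicCompletion K) E).index = finrank (v.adicCompletion K) E := by
  have : IsMulCommutative (E ≃ₐ[v.adicCompletion K] E) := IsCyclic.isMulCommutative
  obtain ⟨-, ⟨e⟩, -⟩ := abelian_facts v E
  rw [← IsGalois.card_aut_eq_finrank, ← Nat.card_congr e.toEquiv]
  rfl

/-- The relative Brauer group of a cyclic extension has the degree as order. -/
theorem card_ker_restriction :
    Nat.card (FA.BrauerTheory.restriction (K := v.adicCompletion K) E).ker =
      finrank (v.adicCompletion K) E := by
  obtain ⟨σ, hσ⟩ := IsCyclic.exists_generator (α := E ≃ₐ[v.adicCompletion K] E)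
  rw [← Nat.card_congr (FA.BrauerTheory.relativeEquiv hσ).toEquiv, ← index_normGroup v E]
  rfl

/-- The relative Brauer group of a cyclic extension is cyclic. -/
theorem isCyclic_ker_restriction :
    IsCyclic (FA.BrauerTheory.restriction (K := v.adicCompletion K) E).ker := by
  have : IsMulCommutative (E ≃ₐ[v.adicCompletion K] E) := IsCyclic.isMulCommutative
  obtain ⟨σ, hσ⟩ := IsCyclic.exists_generator (α := E ≃ₐ[v.adicCompletion K] E)
  obtain ⟨-, ⟨e⟩, -⟩ := abelian_facts v E
  have e' := e.symm.trans (FA.BrauerTheory.relativeEquiv hσ)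
  exact isCyclic_of_surjective e'.toMonoidHom e'.surjective

end FA.BrauerLocal

end
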