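import Fermat.Agent.BrauerLocal.BaseChange
import Fermat.Agent.BrauerLocal.Models
import Mathlib.FieldTheory.LinearDisjoint

/-!
# Two cyclic extensions of the same prime degree have the same relative Brauer group

If `E` and `M` are different cyclic extensions of degree `p` of a completion `k`, the norm group of
`EM/M` is the preimage of that of `E/k` under the norm, as the indices agree; so it contains `k`.
-/

set_option autoImplicit false
set_option linter.style.haveILetI false

noncomputable section

open NumberField IsDedekindDomain Module IntermediateField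
open FA.LocalCFT FA.BrauerTheory
open FA.QuadFormsNF (charZero_completion)
open scoped TensorProduct

namespace FA.BrauerLocal

/-- Extensions of prime degree without a map between them are linearly disjoint. -/
theorem isField_tensor_of_prime {k E M : Type} [Field k] [Field E] [Field M] [Algebra k E]
    [Algebra k M] [FiniteDimensional k E] [FiniteDimensional k M] [IsGalois k E] {p : ℕ}
    (hp : p.Prime) (hE : finrank k E = p) (h : IsEmpty (E →ₐ[k] M)) : IsField (M ⊗[k] E) := by
  let Ω := AlgebraicClosure k
  let fa : M →ₐ[k] Ω := IsAlgClosed.lift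
  let fb : E →ₐ[k] Ω := IsAlgClosed.lift
  let eA : M ≃ₐ[k] fa.fieldRange := AlgEquiv.ofInjectiveField fa
  let eB : E ≃ₐ[k] fb.fieldRange := AlgEquiv.ofInjectiveField fb
  haveI : IsGalois k fb.fieldRange := IsGalois.of_algEquiv eB
  haveI : FiniteDimensional k fa.fieldRange := eA.toLinearEquiv.finiteDimensional
  haveI : FiniteDimensional k fb.fieldRange := eB.toLinearEquiv.finiteDimensional
  have hB : finrank k fb.fieldRange = p := eB.toLinearEquiv.finrank_eq.symm.trans hE
  refine LinearDisjoint.isField_of_isAlgebraic' (fa := fa) (fb := fb)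
    (LinearDisjoint.of_inf_eq_bot (inf_comm fa.fieldRange fb.fieldRange ▸ ?_)).symm
      (Or.inl inferInstance)
  have hdvd : finrank k ↥(fa.fieldRange ⊓ fb.fieldRange) ∣ p := by
    rw [← hB]
    exact finrank_dvd_of_le_right inf_le_right
  rcases (Nat.dvd_prime hp).1 hdvd with h1 | h1
  · exact IntermediateField.finrank_eq_one_iff.1 h1
  · refine h.elim (eA.symm.toAlgHom.comp ((inclusion ?_).comp eB.toAlgHom))
    rw [← IntermediateField.eq_of_le_of_finrank_eq inf_le_right (h1.trans hB.symm)]
    exact inf_le_left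

/-- The automorphisms of `E` act on `M ⊗ E`. -/
def tensorGal (k E M : Type) [Field k] [Field E] [Field M] [Algebra k E] [Algebra k M] :
    (E ≃ₐ[k] E) →* (M ⊗[k] E ≃ₐ[M] M ⊗[k] E) where
  toFun g := Algebra.TensorProduct.congr AlgEquiv.refl g
  map_one' := by
    refine AlgEquiv.ext fun z => ?_
    induction z using TensorProduct.induction_on with
    | zero => simp
    | add z w hz hw => simp only [map_add, hz, hw]
    | tmul m l => rfl
  map_mul' g h := by
    refine AlgEquiv.ext fun z => ?_
    induction z using TensorProduct.induction_on with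
    | zero => simp
    | add z w hz hw => simp only [map_add, hz, hw]
    | tmul m l => rfl

/-- `M ⊗ E` is a cyclic extension of `M` with the group of `E`, when it is a field. -/
theorem tensor_facts {k E M : Type} [Field k] [Field E] [Field M] [Algebra k E] [Algebra k M]
    [FiniteDimensional k E] [IsGalois k E] [IsCyclic (E ≃ₐ[k] E)] (hF : IsField (M ⊗[k] E)) :
    letI := hF.toField
    FiniteDimensional M (M ⊗[k] E) ∧ IsGalois M (M ⊗[k] E) ∧
      IsCyclic (M ⊗[k] E ≃ₐ[M] M ⊗[k] E) ∧ finrank M (M ⊗[k] E) = finrank k E ∧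
      Function.Bijective (tensorGal k E M) := by
  letI := hF.toField
  have hL : finrank M (M ⊗[k] E) = finrank k E := Module.finrank_baseChange
  haveI : FiniteDimensional M (M ⊗[k] E) := Module.Finite.base_change k M E
  have hψ : Function.Injective (tensorGal k E M) := fun g h e => AlgEquiv.ext fun l =>
    (Algebra.TensorProduct.includeRight : E →ₐ[k] M ⊗[k] E).toRingHom.injective
      (AlgEquiv.congr_fun e ((1 : M) ⊗ₜ[k] l))
  have hcard : Nat.card (M ⊗[k] E ≃ₐ[M] M ⊗[k] E) = finrank k E := le_antisymm
    (by rw [Nat.card_eq_fintype_card, ← hL]; exact AlgEquiv.card_le)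
    (by rw [← IsGalois.card_aut_eq_finrank]; exact Nat.card_le_card_of_injective _ hψ)
  have hb := (Nat.bijective_iff_injective_and_card _).2 ⟨hψ, by
    rw [hcard, IsGalois.card_aut_eq_finrank]⟩
  exact ⟨inferInstance, IsGalois.of_card_aut_eq_finrank M _ (hcard.trans hL.symm),
    isCyclic_of_surjective _ hb.2, hL, hb⟩

variable {K : Type} [Field K] [NumberField K] {v : HeightOneSpectrum (𝓞 K)} {p : ℕ}

/-- **The relative Brauer groups of two cyclic extensions of degree `p` agree.** -/
theorem restriction_eq_one_of_prime (hp : p.Prime) {E E' : Type} [Field E] [Field E']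
    [Algebra (v.adicCompletion K) E] [FiniteDimensional (v.adicCompletion K) E]
    [IsGalois (v.adicCompletion K) E] [IsCyclic (E ≃ₐ[v.adicCompletion K] E)]
    [Algebra (v.adicCompletion K) E'] [FiniteDimensional (v.adicCompletion K) E']
    [IsGalois (v.adicCompletion K) E'] [IsCyclic (E' ≃ₐ[v.adicCompletion K] E')]
    (hE : finrank (v.adicCompletion K) E = p) (hE' : finrank (v.adicCompletion K) E' = p)
    {x : BrauerGroup.{0, 0} (v.adicCompletion K)} (hx : restriction E x = 1) :
    restriction E' x = 1 := by
  by_cases hne : Nonempty (E →ₐ[v.adicCompletion K] E')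
  · exact restriction_eq_one_of_algHom hne.some hx
  obtain ⟨F, _, _, w, _, ⟨e'⟩⟩ := exists_completion_algEquiv v E'
  set k := v.adicCompletion K
  set M := w.adicCompletion F
  haveI := charZero_completion w
  refine restriction_eq_one_of_algHom e'.symm.toAlgHom ?_
  haveI : FiniteDimensional k M := e'.toLinearEquiv.finiteDimensional
  haveI : IsGalois k M := IsGalois.of_algEquiv e'
  haveI : IsCyclic (M ≃ₐ[k] M) := isCyclic_of_surjective e'.autCongr.toMonoidHom
    e'.autCongr.surjective
  have hM : finrank k M = p := e'.toLinearEquiv.finrank_eq.symm.trans hE'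
  have hno : IsEmpty (E →ₐ[k] M) := ⟨fun f => hne ⟨e'.symm.toAlgHom.comp f⟩⟩
  have hF := isField_tensor_of_prime hp hE hno
  letI : Field (M ⊗[k] E) := hF.toField
  obtain ⟨_, _, _, hL', hb⟩ := tensor_facts hF
  have hL : finrank M (M ⊗[k] E) = p := hL'.trans hE
  set ψ := tensorGal k E M
  obtain ⟨σ, hσ⟩ := IsCyclic.exists_generator (α := E ≃ₐ[k] E)
  have hσ' : ∀ g, g ∈ Subgroup.zpowers (ψ σ) := fun g => by
    obtain ⟨g₀, rfl⟩ := hb.2 g
    obtain ⟨i, rfl⟩ := Subgroup.mem_zpowers_iff.1 (hσ g₀)
    exact ⟨i, (map_zpow ψ σ i).symm⟩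
  obtain ⟨a, rfl⟩ : x ∈ (cyclicHom hσ).range := by rw [cyclicHom_range hσ]; exact hx
  rw [restriction_cyclicHom_baseChange hσ hσ' AlgEquiv.refl (fun l => rfl) a]
  refine (cyclicClass_eq_one_iff hσ' _).2 ?_
  haveI : IsMulCommutative (E ≃ₐ[k] E) := IsCyclic.isMulCommutative
  haveI : IsMulCommutative (M ≃ₐ[k] M) := IsCyclic.isMulCommutative
  set NM : Mˣ →* kˣ := Units.map (Algebra.norm k : M →* k)
  set P := (normGroup k E).comap NM
  have hle : normGroup M (M ⊗[k] E) ≤ P := by
    rintro _ ⟨z, rfl⟩
    let _ : Algebra E (M ⊗[k] E) :=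
      (Algebra.TensorProduct.includeRight : E →ₐ[k] M ⊗[k] E).toRingHom.toAlgebra
    haveI : IsScalarTower k E (M ⊗[k] E) := IsScalarTower.of_algebraMap_eq fun c =>
      ((Algebra.TensorProduct.includeRight : E →ₐ[k] M ⊗[k] E).commutes c).symm
    haveI : FiniteDimensional k (M ⊗[k] E) := inferInstance
    refine ⟨Units.map (Algebra.norm E : M ⊗[k] E →* E) z, Units.ext ?_⟩
    show Algebra.norm k (Algebra.norm E (z : M ⊗[k] E)) =
      Algebra.norm k (Algebra.norm M (z : M ⊗[k] E))
    rw [Algebra.norm_norm, Algebra.norm_norm]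
  have hPi : P.index = p := by
    have hidx : (normGroup k E).index = p := (index_normGroup v E).trans hE
    rw [Subgroup.index_comap]
    rcases (Nat.dvd_prime hp).1 (hidx ▸ Subgroup.relIndex_dvd_index_of_normal
      (normGroup k E) NM.range) with h1 | h1
    · exfalso
      have hle' : normGroup k M ≤ normGroup k E := Subgroup.relIndex_eq_one.1 h1
      have h2 := Subgroup.relIndex_mul_index hle'
      rw [index_normGroup v M, hM, hidx] at h2
      obtain ⟨f⟩ := algEquiv_of_normGroup_eq v (le_antisymm (Subgroup.relIndex_eq_one.1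
        (Nat.eq_of_mul_eq_mul_right hp.pos (h2.trans (one_mul p).symm))) hle')
      exact hno.elim f.toAlgHom
    · exact h1
  have hP : normGroup M (M ⊗[k] E) = P := by
    refine le_antisymm hle (Subgroup.relIndex_eq_one.1 ?_)
    have h2 := Subgroup.relIndex_mul_index hle
    rw [hPi, index_normGroup w (M ⊗[k] E), hL] at h2
    exact Nat.eq_of_mul_eq_mul_right hp.pos (h2.trans (one_mul p).symm)
  have ha : Units.map (algebraMap k M).toMonoidHom a ∈ P := by
    refine ⟨Units.map (algebraMap k E).toMonoidHom a, Units.ext ?_⟩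
    show Algebra.norm k (algebraMap k E (a : k)) = Algebra.norm k (algebraMap k M (a : k))
    rw [Algebra.norm_algebraMap, Algebra.norm_algebraMap, hE, hM]
  rw [← hP] at ha
  obtain ⟨z, hz⟩ := ha
  exact ⟨z, congrArg Units.val hz⟩

end FA.BrauerLocal

end
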