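import Mathlib.GroupTheory.SpecificGroups.Cyclic
import Mathlib.Data.ZMod.Units
import Mathlib.Algebra.Order.Round
import Mathlib.Data.Rat.Lemmas
import Mathlib.GroupTheory.QuotientGroup.Basic

/-!
# A characterisation of `ℚ / ℤ`

An abelian torsion group in which, for every `n ≠ 0`, the elements killed by `n` form a cyclic group
of order `n` is isomorphic to `ℚ / ℤ`.
-/

set_option autoImplicit false

noncomputable section

open Nat

namespace FA.BrauerLocal

variable {G : Type*} [CommGroup G]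
  (h : ∀ n : ℕ, n ≠ 0 → ∃ g : G, orderOf g = n ∧ ∀ y : G, y ^ n = 1 → y ∈ Subgroup.zpowers g)

include h

/-- An element of order `m * n` above a given element of order `n`. -/
theorem exists_root_of_orderOf {m n : ℕ} (hm : m ≠ 0) (hn : n ≠ 0) {u : G} (hu : orderOf u = n) :
    ∃ w : G, orderOf w = m * n ∧ w ^ m = u := by
  obtain ⟨g, hg, hmem⟩ := h (m * n) (mul_ne_zero hm hn)
  obtain ⟨i, hi⟩ := Subgroup.mem_zpowers_iff.1 (hmem u
    (by rw [mul_comm, pow_mul, ← hu, pow_orderOf_eq_one, one_pow]))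
  obtain ⟨c, hc⟩ : (m : ℤ) ∣ i := by
    have h1 : g ^ (i * (n : ℤ)) = 1 := by
      rw [zpow_mul, hi, zpow_natCast, ← hu, pow_orderOf_eq_one]
    rw [← orderOf_dvd_iff_zpow_eq_one, hg, Nat.cast_mul] at h1
    exact Int.dvd_of_mul_dvd_mul_right (by exact_mod_cast hn) h1
  have hgm : orderOf (g ^ m) = n := by
    rw [orderOf_pow' g hm, hg, Nat.gcd_mul_right_left,
      Nat.mul_div_cancel_left _ (Nat.pos_of_ne_zero hm)]
  have hfin : IsOfFinOrder (g ^ m) := orderOf_pos_iff.1 (hgm ▸ Nat.pos_of_ne_zero hn)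
  obtain ⟨j, hj⟩ : u ∈ Submonoid.powers (g ^ m) := hfin.mem_powers_iff_mem_zpowers.2 ⟨c, by
    show (g ^ m) ^ c = u
    rw [← zpow_natCast g m, ← zpow_mul, ← hc, hi]⟩
  change (g ^ m) ^ j = u at hj
  have hcop : Nat.Coprime j n := by
    have h1 := IsOfFinOrder.orderOf_pow (g ^ m) j hfin
    rw [hj, hu, hgm] at h1
    rcases (Nat.div_eq_self.1 h1.symm) with h2 | h2
    · exact absurd h2 hn
    · exact (Nat.coprime_comm.1 h2)
  have : NeZero n := ⟨hn⟩
  have : NeZero (m * n) := ⟨mul_ne_zero hm hn⟩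
  obtain ⟨j', hj'⟩ := ZMod.unitsMap_surjective (dvd_mul_left n m) (ZMod.unitOfCoprime j hcop)
  have hmod : ((j' : ZMod (m * n)).val : ℕ) ≡ j [MOD n] := by
    rw [← ZMod.natCast_eq_natCast_iff]
    have h1 := congrArg Units.val hj'
    rw [ZMod.unitsMap_val, ZMod.coe_unitOfCoprime] at h1
    rw [← h1, ZMod.natCast_val]
  refine ⟨g ^ (j' : ZMod (m * n)).val, ?_, ?_⟩
  · rw [Nat.Coprime.orderOf_pow, hg]
    rw [hg]
    exact (ZMod.val_coe_unit_coprime j').symm
  · rw [← pow_mul, mul_comm, pow_mul, ← hj, pow_eq_pow_iff_modEq, hgm]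
    exact hmod

/-- A compatible system of elements of order `k!`. -/
def sys : ∀ k : ℕ, {w : G // orderOf w = k !}
  | 0 => ⟨1, orderOf_one⟩
  | k + 1 => ⟨(exists_root_of_orderOf h k.succ_ne_zero (factorial_ne_zero k) (sys k).2).choose,
      ((exists_root_of_orderOf h k.succ_ne_zero (factorial_ne_zero k) (sys k).2).choose_spec).1⟩

theorem sys_succ (k : ℕ) : (sys h (k + 1)).1 ^ (k + 1) = (sys h k).1 :=
  ((exists_root_of_orderOf h k.succ_ne_zero (factorial_ne_zero k) (sys h k).2).choose_spec).2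

/-- The image of `q` at a level `k` with `q.den ∣ k!`. -/
def level (k : ℕ) (q : ℚ) : ℤ := q.num * ((k ! / q.den : ℕ) : ℤ)

omit h in
theorem cast_level {k : ℕ} {q : ℚ} (hk : q.den ∣ k !) : (level k q : ℚ) = q * k ! := by
  obtain ⟨c, hc⟩ := hk
  rw [level, hc, Nat.mul_div_cancel_left _ q.pos, Int.cast_mul, Int.cast_natCast, Nat.cast_mul,
    ← mul_assoc, Rat.mul_den_eq_num]

/-- The level does not matter. -/
theorem sys_zpow_level {q : ℚ} {k : ℕ} (hk : q.den ≤ k) :
    (sys h k).1 ^ level k q = (sys h q.den).1 ^ level q.den q := by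
  induction k, hk using Nat.le_induction with
  | base => rfl
  | succ k hk ih =>
    have hd : q.den ∣ k ! := Nat.dvd_factorial q.pos hk
    rw [← ih, ← sys_succ h k, ← zpow_natCast, ← zpow_mul]
    congr 1
    apply Int.cast_injective (α := ℚ)
    rw [cast_level (hd.trans (Nat.factorial_dvd_factorial (Nat.le_succ _))), Int.cast_mul,
      cast_level hd, Nat.factorial_succ]
    push_cast
    ring

/-- The map from `ℚ`. -/
def ratHom : ℚ →+ Additive G where
  toFun q := Additive.ofMul ((sys h q.den).1 ^ level q.den q)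
  map_zero' := by simp [level]
  map_add' q r := by
    set k := max q.den (max r.den (q + r).den)
    have hq : q.den ≤ k := le_max_left _ _
    have hr : r.den ≤ k := (le_max_left _ _).trans (le_max_right _ _)
    have hqr : (q + r).den ≤ k := (le_max_right _ _).trans (le_max_right _ _)
    rw [← ofMul_mul, ← sys_zpow_level h hq, ← sys_zpow_level h hr, ← sys_zpow_level h hqr,
      ← zpow_add]
    congr 2
    apply Int.cast_injective (α := ℚ)
    rw [Int.cast_add, cast_level (Nat.dvd_factorial (q + r).pos hqr),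
      cast_level (Nat.dvd_factorial q.pos hq), cast_level (Nat.dvd_factorial r.pos hr), add_mul]

theorem ker_ratHom : (ratHom h).ker = AddSubgroup.zmultiples (1 : ℚ) := by
  ext q
  show (sys h q.den).1 ^ level q.den q = 1 ↔ _
  rw [← orderOf_dvd_iff_zpow_eq_one, (sys h q.den).2, AddSubgroup.mem_zmultiples_iff]
  have hd : q.den ∣ (q.den)! := Nat.dvd_factorial q.pos le_rfl
  constructor
  · rintro ⟨z, hz⟩
    refine ⟨z, ?_⟩
    have h1 := cast_level hd
    rw [hz, Int.cast_mul, Int.cast_natCast, mul_comm] at h1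
    rw [zsmul_one]
    exact mul_right_cancel₀ (by exact_mod_cast factorial_ne_zero _) h1
  · rintro ⟨z, rfl⟩
    refine ⟨z, Int.cast_injective (α := ℚ) ?_⟩
    rw [cast_level hd, Int.cast_mul, Int.cast_natCast, zsmul_one, mul_comm]

theorem ratHom_surjective (htors : ∀ x : G, ∃ n : ℕ, n ≠ 0 ∧ x ^ n = 1) :
    Function.Surjective (ratHom h) := by
  intro x
  obtain ⟨n, hn, hx⟩ := htors (Additive.toMul x)
  obtain ⟨g, hg, hmem⟩ := h n ! (factorial_ne_zero n)
  have hx' : Additive.toMul x ^ n ! = 1 := by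
    obtain ⟨c, hc⟩ := Nat.dvd_factorial (Nat.pos_of_ne_zero hn) le_rfl
    rw [hc, pow_mul, hx, one_pow]
  have hle : Subgroup.zpowers (sys h n).1 = Subgroup.zpowers g := by
    have : Finite (Subgroup.zpowers g) := Nat.finite_of_card_ne_zero
      (by rw [Nat.card_zpowers, hg]; exact factorial_ne_zero n)
    refine Subgroup.eq_of_le_of_card_ge ?_ (by
      rw [Nat.card_zpowers, Nat.card_zpowers, hg, (sys h n).2])
    exact Subgroup.zpowers_le.2 (hmem _ (orderOf_dvd_iff_pow_eq_one.1 (sys h n).2.dvd))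
  obtain ⟨i, hi⟩ := Subgroup.mem_zpowers_iff.1 (hle ▸ hmem _ hx')
  set q : ℚ := (i : ℚ) / (n ! : ℕ) with hq
  have hd : q.den ∣ n ! := by
    have h1 : ((Rat.divInt i ((n ! : ℕ) : ℤ)).den : ℤ) ∣ ((n ! : ℕ) : ℤ) := Rat.den_dvd i _
    rw [show Rat.divInt i ((n ! : ℕ) : ℤ) = q by rw [Rat.divInt_eq_div, Int.cast_natCast]] at h1
    exact_mod_cast h1
  refine ⟨q, congrArg Additive.ofMul (?_ : _ = Additive.toMul x)⟩
  rw [← hi, ← sys_zpow_level h (le_max_left q.den n)]
  have hup : ∀ k, n ≤ k → (sys h k).1 ^ level k q = (sys h n).1 ^ i := fun k hk => by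
    induction k, hk using Nat.le_induction with
    | base =>
      congr 1
      apply Int.cast_injective (α := ℚ)
      rw [cast_level hd, hq, div_mul_cancel₀ _ (by exact_mod_cast factorial_ne_zero n)]
    | succ k hk ih =>
      rw [← ih, ← sys_succ h k, ← zpow_natCast, ← zpow_mul]
      congr 1
      have hdk : q.den ∣ k ! := hd.trans (Nat.factorial_dvd_factorial hk)
      apply Int.cast_injective (α := ℚ)
      rw [cast_level (hdk.trans (Nat.factorial_dvd_factorial (Nat.le_succ _))), Int.cast_mul,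
        cast_level hdk, Nat.factorial_succ]
      push_cast
      ring
  exact hup _ (le_max_right _ _)

/-- **The characterisation of `ℚ / ℤ`.** -/
theorem nonempty_addEquiv_ratModInt (htors : ∀ x : G, ∃ n : ℕ, n ≠ 0 ∧ x ^ n = 1) :
    Nonempty (Additive G ≃+ ℚ ⧸ AddSubgroup.zmultiples (1 : ℚ)) :=
  ⟨(QuotientAddGroup.quotientKerEquivOfSurjective _ (ratHom_surjective h htors)).symm.trans
    (QuotientAddGroup.quotientAddEquivOfEq (ker_ratHom h))⟩

end FA.BrauerLocal

end
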